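import Mathlib
import Fermat.Prelude.Def_GaloisRep_Residual

/-!
# S48 (Deligne–Serre) : shared definitions.   Blueprint: table `briefing`, title `S48-BLUEPRINT v2`.
-/

set_option autoImplicit false

noncomputable section

namespace Fermat.Agent.S48

abbrev Qb : Type := AlgebraicClosure ℚ
abbrev GQ : Type := Qb ≃ₐ[ℚ] Qb
/-- the ring of all algebraic integers in `ℂ` -/
abbrev Zbar : Subalgebra ℤ ℂ := integralClosure ℤ ℂ

/-- `log (1/(s-1))` (`= ES.Lam` by `rfl`) -/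
def Lam (s : ℝ) : ℝ := Real.log (1 / (s - 1))

/-- `∑_p w(p) p^{-s} ≤ δ log(1/(s-1)) + O(1)` for `s → 1+` (all finite partial sums) -/
def UB (w : ℕ → ℝ) (δ : ℝ) : Prop :=
  ∃ C : ℝ, ∀ s : ℝ, 1 < s → s < 2 → ∀ F : Finset ℕ, (∀ p ∈ F, p.Prime) →
    ∑ p ∈ F, w p * (p : ℝ) ^ (-s) ≤ δ * Lam s + C

open Classical in
/-- `∑_{p prime, P p} p^{-s}` -/
def primeSum (P : ℕ → Prop) (s : ℝ) : ℝ :=
  ∑' p : ℕ, if p.Prime ∧ P p then (p : ℝ) ^ (-s) else 0

/-- the formal Hecke relations of S48 for a sequence `a` and "character values" `e` -/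
def HeckeRel (N : ℕ) (a e : ℕ → ℂ) : Prop :=
  ∀ p : ℕ, p.Prime → ¬ p ∣ N → ∀ n : ℕ,
    a (p * n) + e p * (if p ∣ n then a (n / p) else 0) = a p * a n

end Fermat.Agent.S48
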