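import Fermat.Agent.S48.Defs
import Fermat.Agent.S29.DOrbit

/-!
# S48 : function level forms with nebentypus (shared by the layers H, K, Z, W)

* `S20.IsMF Γ k f`, `S20.IsCF Γ k f` : function level modular/cusp forms on `Γ ≤ SL(2,ℤ)` (bridges to bundled forms in `S20/Basic.lean`);
* `S24.IsQ f` : holomorphic, `1`-periodic, bounded at `i∞` (so `qExpansion 1 f` makes sense); `S29.coeffFun f n` = `n`-th coefficient;
* `S29.IsCh N k χ f` : cusp forms with a character `χ : Gamma0 N →* ℂˣ`;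
* here: `IsNeb M k χ f` / `IsNebC M k χ f` : modular / cusp forms on `Γ₀(M)` with `f ∣[k] γ = χ (γ 1 1) • f`, `χ : ℤ → ℂ` any function
  (in practice `χ = etaOf ε`, `ε` a Dirichlet character modulo a DIVISOR of `M`: no `changeLevel` needed).
-/

set_option autoImplicit false

open UpperHalfPlane ModularForm ModularFormClass CongruenceSubgroup Fermat.Agent.S24 Fermat.Agent.S29
open scoped MatrixGroups Manifold

noncomputable section

namespace Fermat.Agent.S48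

/-- `d ↦ ε (d mod N)` -/
def etaOf {N : ℕ} (ε : DirichletCharacter ℂ N) : ℤ → ℂ := fun d => ε (d : ZMod N)

/-- modular forms on `Γ₀(M)` with nebentypus `χ` -/
structure IsNeb (M : ℕ) (k : ℤ) (χ : ℤ → ℂ) (f : ℍ → ℂ) : Prop where
  isQ : IsQ f
  slash : ∀ γ : SL(2, ℤ), γ ∈ Gamma0 M → f ∣[k] γ = χ (γ 1 1) • f
  bdd : ∀ g : SL(2, ℤ), IsBoundedAtImInfty (f ∣[k] g)

/-- cusp forms on `Γ₀(M)` with nebentypus `χ` -/
structure IsNebC (M : ℕ) (k : ℤ) (χ : ℤ → ℂ) (f : ℍ → ℂ) : Prop where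
  isQ : IsQ f
  slash : ∀ γ : SL(2, ℤ), γ ∈ Gamma0 M → f ∣[k] γ = χ (γ 1 1) • f
  zero : ∀ g : SL(2, ℤ), IsZeroAtImInfty (f ∣[k] g)

/-- the character `γ ↦ ε (d_γ)` of `Γ₀(N)` -/
def nebChar (N : ℕ) (ε : DirichletCharacter ℂ N) : Gamma0 N →* ℂˣ :=
  ε.toUnitHom.comp (Gamma0Map N).toHomUnits

/-- `z ↦ (z + j) / p` -/
def divH (p : ℕ) [NeZero p] (j : ℤ) (z : ℍ) : ℍ :=
  ⟨((z : ℂ) + j) / p, by
    have hp : (0 : ℝ) < p := by exact_mod_cast Nat.pos_of_ne_zero (NeZero.ne p)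
    have : (((z : ℂ) + j) / p).im = z.im / p := by
      rw [Complex.div_natCast_im]; simp
    rw [this]; exact div_pos z.im_pos hp⟩

end Fermat.Agent.S48
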